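import Fermat.Agent.S18.Ctx

/-! # S18 task B1 -/

set_option autoImplicit false

noncomputable section

namespace Fermat.Agent.S18

open Polynomial IntermediateField ModularCurve AlgebraicCurve
open Fermat.Agent.S24 (Kb FN iotaK)

namespace DVR

/-- a valuation subring contains the integral elements. -/
theorem mem_of_isIntegral {L : Type*} [Field L] (A : ValuationSubring L) {x : L}
    (hx : IsIntegral ℤ x) : x ∈ A := by
  have h1 : IsIntegral A x := hx.tower_top
  obtain ⟨y, hy⟩ := (IsIntegrallyClosed.isIntegral_iff (R := A) (K := L)).1 h1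
  rw [← hy]
  exact y.2

theorem mem_nonunits_iff_inv {L : Type*} [Field L] (A : ValuationSubring L) (x : L) :
    x ∈ A.nonunits ↔ x = 0 ∨ x⁻¹ ∉ A := by
  rw [ValuationSubring.mem_nonunits_iff, ← ValuationSubring.valuation_le_one_iff]
  by_cases hx : x = 0
  · simp [hx]
  · have h0 : A.valuation x ≠ 0 := (Valuation.ne_zero_iff _).2 hx
    rw [map_inv₀, not_le, one_lt_inv₀ (zero_lt_iff.2 h0)]
    simp [hx]

theorem mem_nonunits_comap {K L : Type*} [Field K] [Field L] (ι : K →+* L)
    (A : ValuationSubring L) (x : K) : x ∈ (A.comap ι).nonunits ↔ ι x ∈ A.nonunits := by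
  rw [mem_nonunits_iff_inv, mem_nonunits_iff_inv, ValuationSubring.mem_comap, map_inv₀,
    map_eq_zero]

end DVR

open IsDedekindDomain NumberField in
/-- task B1.  `A ∩ K` is a DVR: it is a valuation ring of the number field `K`, `≠ K` (`ℓ` is not
a unit), and it is the localisation of `𝓞 K` at a prime (or: its value group is discrete because
`v(K^×)/v(ℚ^×)` is finite).  -/
theorem isDVR_comap {K : Type} [Field K] [NumberField K] (ι : K →+* Kb) (A : ValuationSubring Kb)
    {ℓ : ℕ} (hℓ : ℓ.Prime) (hA : A.LiesOverPrime ℓ) : IsDiscreteValuationRing (A.comap ι) := by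
  classical
  have hO : ∀ x : 𝓞 K, (x : K) ∈ A.comap ι := fun x => by
    show ι x ∈ A
    exact DVR.mem_of_isIntegral A (map_isIntegral_int ι x.2)
  let φ : 𝓞 K →+* A.comap ι :=
    { toFun := fun x => ⟨x, hO x⟩
      map_one' := rfl
      map_zero' := rfl
      map_mul' := fun _ _ => rfl
      map_add' := fun _ _ => rfl }
  let P : Ideal (𝓞 K) := Ideal.comap φ (IsLocalRing.maximalIdeal (A.comap ι))
  have hPprime : P.IsPrime := Ideal.comap_isPrime φ _
  have hmemP : ∀ x : 𝓞 K, x ∈ P ↔ (x : K) ∈ (A.comap ι).nonunits := by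
    intro x
    show φ x ∈ IsLocalRing.maximalIdeal (A.comap ι) ↔ _
    rw [← ValuationSubring.coe_mem_nonunits_iff]
    exact Iff.rfl
  have hℓK : (ℓ : K) ∈ (A.comap ι).nonunits := by
    rw [DVR.mem_nonunits_comap, map_natCast]
    exact hA
  have hℓP : (ℓ : 𝓞 K) ∈ P := by
    rw [hmemP]
    exact_mod_cast hℓK
  have hP0 : P ≠ ⊥ := by
    intro h
    rw [h, Ideal.mem_bot] at hℓP
    exact hℓ.ne_zero (by exact_mod_cast hℓP)
  let v : HeightOneSpectrum (𝓞 K) := ⟨P, hPprime, hP0⟩
  have hle : (v.valuation K).valuationSubring ≤ A.comap ι := by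
    intro x hx
    obtain ⟨n, d, hnd⟩ := v.exists_primeCompl_mul_eq_of_integer x hx
    have hd : (d : 𝓞 K) ∉ P := d.2
    rw [hmemP, DVR.mem_nonunits_iff_inv, not_or, not_not] at hd
    have : x = algebraMap (𝓞 K) K n * (algebraMap (𝓞 K) K d)⁻¹ := by
      rw [← hnd, mul_assoc, mul_inv_cancel₀ hd.1, mul_one]
    rw [this]
    exact mul_mem (hO n) hd.2
  have htop : A.comap ι ≠ ⊤ := by
    intro h
    rw [DVR.mem_nonunits_iff_inv, h] at hℓK
    rcases hℓK with h0 | h0
    · exact hℓ.ne_zero (by exact_mod_cast h0)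
    · exact h0 (ValuationSubring.mem_top _)
  have := ValuationSubring.eq_of_le_of_ne_top _ hle htop
  rw [← this]
  infer_instance

namespace Ctx

variable {N : ℕ} [NeZero N] {ℓ p : ℕ} {A : ValuationSubring Kb} (𝒞 : Ctx N ℓ p A)

theorem isDVR : IsDiscreteValuationRing 𝒞.R :=
  isDVR_comap 𝒞.ι A 𝒞.hℓ 𝒞.hA

end Ctx

end Fermat.Agent.S18
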