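import Fermat.Agent.S18.HSide
import Fermat.Agent.S28.IntGens

/-! # S18 task B3 -/

set_option autoImplicit false

noncomputable section

namespace Fermat.Agent.S18

open Polynomial IntermediateField ModularCurve AlgebraicCurve
open Fermat.Agent.S24 (Kb FN iotaK)

namespace Fin

theorem finite_divisorExpansionsC (K : Type*) [Field K] (N : ℕ) [NeZero N] :
    (divisorExpansionsC K N).Finite := by
  classical
  let f : ℕ → LaurentSeries K := fun d =>
    if h : d = 0 then 0 else haveI : NeZero d := ⟨h⟩; qExpand K d (jqModC K)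
  apply ((N.divisors : Set ℕ).toFinite.image f).subset
  rintro _ ⟨d, hd0, hd, rfl⟩
  refine ⟨d, by simp [hd, NeZero.ne N], ?_⟩
  simp [f, NeZero.ne d]

theorem twist_one' {A : Type*} [CommRing A] (ψ : LaurentSeries A) :
    Fermat.Agent.S28.twist (1 : Aˣ) ψ = ψ := by
  ext n
  show (((1 : Aˣ) ^ n : Aˣ) : A) * ψ.coeff n = ψ.coeff n
  simp

theorem jd_eq (d : ℕ) [NeZero d] : Fermat.Agent.S28.jd d = qExpand ℚ d jq := by
  rw [Fermat.Agent.S28.jd, Fermat.Agent.S28.evz_eq_ev, Fermat.Agent.S28.ev, RingHom.comp_apply,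
    twist_one']

/-- the modular equation over `K`: a monic polynomial over `ℚ[X]` killing `j(q^d)` when `X ↦ j`. -/
theorem exists_modEq (K : Type*) [Field K] [CharZero K] (d : ℕ) [NeZero d] :
    ∃ P : (ℚ[X])[X], P.Monic ∧
      P.eval₂ (Polynomial.eval₂RingHom ((algebraMap K (LaurentSeries K)).comp (algebraMap ℚ K))
        (jqModC K)) (qExpand K d (jqModC K)) = 0 := by
  obtain ⟨P, hP, h0⟩ := Fermat.Agent.S28.intJ_jd d (NeZero.ne d)
  refine ⟨P, hP, ?_⟩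
  have h1 := congrArg (coeffMap (algebraMap ℚ K)) h0
  rw [map_zero, hom_eval₂, jd_eq, coeffMap_qExpand, ← jqModC_rat, coeffMap_jqModC] at h1
  rw [← h1]
  congr 1
  apply Polynomial.ringHom_ext
  · intro a
    have : ∀ f g : ℚ →+* LaurentSeries K, f a = g a := fun f g => by
      rw [Subsingleton.elim f g]
    exact this ((Polynomial.eval₂RingHom ((algebraMap K (LaurentSeries K)).comp (algebraMap ℚ K))
        (jqModC K)).comp Polynomial.C)
      (((coeffMap (algebraMap ℚ K)).comp (Fermat.Agent.S28.pe ℚ (jqModC ℚ))).comp Polynomial.C)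
  · rw [RingHom.comp_apply, Fermat.Agent.S28.pe_apply, eval₂_X, coe_eval₂RingHom, eval₂_X,
      coeffMap_jqModC]

/-- the abstract form of B3. -/
theorem finiteDimensional_abstract {K E : Type*} [Field K] [Field E] [Algebra K E]
    (r : ℚ →+* E) (x j u : E) (Ap Bp : ℤ[X]) (hA : aeval x Ap ≠ 0)
    (hrel : aeval x Bp = aeval x Ap * j)
    (S : Set E) (hS : S.Finite)
    (hSint : ∀ y ∈ S, ∃ P : (ℚ[X])[X], P.Monic ∧ P.eval₂ (Polynomial.eval₂RingHom r j) y = 0)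
    (p : ℕ) (hp : 0 < p) (hu : u ^ p ∈ Subfield.closure (Set.range (algebraMap K E) ∪ S))
    (hgen : Subfield.closure (Set.range (algebraMap K E) ∪ S ∪ {x, u}) = ⊤) :
    FiniteDimensional K⟮x⟯ E := by
  classical
  have : CharZero E := charZero_of_injective_ringHom r.injective
  have : CharZero K := (algebraMap K E).charZero
  have hxk : x ∈ K⟮x⟯ := mem_adjoin_simple_self _ _
  have haev : ∀ P : ℤ[X], aeval x P ∈ K⟮x⟯ := by
    intro P
    have h2 := HSide.map_aeval_int (K⟮x⟯.val.toRingHom) ⟨x, hxk⟩ P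
    have h3 : aeval x P = K⟮x⟯.val.toRingHom (aeval (⟨x, hxk⟩ : K⟮x⟯) P) := h2.symm
    rw [h3]
    exact (aeval (⟨x, hxk⟩ : K⟮x⟯) P).2
  have hj : j ∈ K⟮x⟯ := by
    have h1 : j = aeval x Bp / aeval x Ap := by
      rw [hrel, mul_div_cancel_left₀ _ hA]
    rw [h1]
    exact div_mem (haev _) (haev _)
  have hint : ∀ y ∈ S, IsIntegral K⟮x⟯ y := by
    intro y hy
    obtain ⟨P, hP, h0⟩ := hSint y hy
    let g : ℚ[X] →+* K⟮x⟯ := Polynomial.eval₂RingHom (algebraMap ℚ K⟮x⟯) ⟨j, hj⟩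
    refine ⟨P.map g, hP.map g, ?_⟩
    rw [eval₂_map, ← h0]
    congr 1
    apply Polynomial.ringHom_ext
    · intro a
      have : ∀ f g : ℚ →+* E, f a = g a := fun f g => by rw [Subsingleton.elim f g]
      exact this (((algebraMap K⟮x⟯ E).comp g).comp Polynomial.C)
        ((Polynomial.eval₂RingHom r j).comp Polynomial.C)
    · rw [coe_eval₂RingHom, eval₂_X, RingHom.comp_apply]
      simp only [g, coe_eval₂RingHom, eval₂_X]
      rfl
  have := hS.to_subtype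
  have hfd0 : FiniteDimensional K⟮x⟯ (IntermediateField.adjoin K⟮x⟯ S) :=
    IntermediateField.finiteDimensional_adjoin hint
  have hle0 : Subfield.closure (Set.range (algebraMap K E) ∪ S) ≤
      (IntermediateField.adjoin K⟮x⟯ S).toSubfield := by
    rw [Subfield.closure_le]
    rintro y (⟨a, rfl⟩ | hy)
    · exact (IntermediateField.adjoin K⟮x⟯ S).algebraMap_mem (algebraMap K K⟮x⟯ a)
    · exact IntermediateField.subset_adjoin _ _ hy
  have hup : IsIntegral K⟮x⟯ (u ^ p) := by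
    have h1 : u ^ p ∈ IntermediateField.adjoin K⟮x⟯ S := hle0 hu
    have h2 : IsIntegral K⟮x⟯ (⟨u ^ p, h1⟩ : IntermediateField.adjoin K⟮x⟯ S) :=
      Algebra.IsIntegral.isIntegral _
    exact h2.map (IntermediateField.adjoin K⟮x⟯ S).val
  have hui : IsIntegral K⟮x⟯ u := hup.of_pow hp
  have hS' : (S ∪ {u}).Finite := hS.union (Set.finite_singleton u)
  have := hS'.to_subtype
  have hfd : FiniteDimensional K⟮x⟯ (IntermediateField.adjoin K⟮x⟯ (S ∪ {u})) := by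
    apply IntermediateField.finiteDimensional_adjoin
    rintro y (hy | hy)
    · exact hint y hy
    · rw [Set.mem_singleton_iff] at hy
      rw [hy]
      exact hui
  have htop : IntermediateField.adjoin K⟮x⟯ (S ∪ {u}) = ⊤ := by
    rw [eq_top_iff]
    intro y _
    have hy : y ∈ Subfield.closure (Set.range (algebraMap K E) ∪ S ∪ {x, u}) := by
      rw [hgen]; trivial
    have hle : Subfield.closure (Set.range (algebraMap K E) ∪ S ∪ {x, u}) ≤
        (IntermediateField.adjoin K⟮x⟯ (S ∪ {u})).toSubfield := by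
      rw [Subfield.closure_le]
      rintro y ((⟨a, rfl⟩ | hy) | hy | hy)
      · exact (IntermediateField.adjoin K⟮x⟯ (S ∪ {u})).algebraMap_mem (algebraMap K K⟮x⟯ a)
      · exact IntermediateField.subset_adjoin _ _ (Or.inl hy)
      · rw [hy]
        exact (IntermediateField.adjoin K⟮x⟯ (S ∪ {u})).algebraMap_mem ⟨x, hxk⟩
      · exact IntermediateField.subset_adjoin _ _ (Or.inr hy)
    exact hle hy
  rw [htop] at hfd
  exact (IntermediateField.topEquiv (F := K⟮x⟯) (E := E)).toLinearEquiv.finiteDimensional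

end Fin

namespace Ctx

variable {N : ℕ} [NeZero N] {ℓ p : ℕ} {A : ValuationSubring Kb} (𝒞 : Ctx N ℓ p A)

/-- the generators `j_d` in `E`. -/
def finS : Set 𝒞.E := {y | (y : LaurentSeries 𝒞.K) ∈ divisorExpansionsC 𝒞.K N}

theorem fin_finite_finS : 𝒞.finS.Finite :=
  (Fin.finite_divisorExpansionsC 𝒞.K N).preimage Subtype.val_injective.injOn

theorem fin_incFE_mem (f : 𝒞.FK) :
    𝒞.incFE f ∈ Subfield.closure (Set.range (algebraMap 𝒞.K 𝒞.E) ∪ 𝒞.finS) := by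
  have key : ∀ y : LaurentSeries 𝒞.K,
      y ∈ IntermediateField.adjoin 𝒞.K (divisorExpansionsC 𝒞.K N) →
      ∃ g : 𝒞.E, (g : LaurentSeries 𝒞.K) = y ∧
        g ∈ Subfield.closure (Set.range (algebraMap 𝒞.K 𝒞.E) ∪ 𝒞.finS) := by
    intro y hy
    induction hy using IntermediateField.adjoin_induction with
    | mem y hy =>
      exact ⟨𝒞.incFE ⟨y, IntermediateField.subset_adjoin _ _ hy⟩, rfl,
          Subfield.subset_closure (Or.inr hy)⟩
    | algebraMap r =>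
      exact ⟨algebraMap 𝒞.K 𝒞.E r, rfl, Subfield.subset_closure (Or.inl ⟨_, rfl⟩)⟩
    | add y z _ _ h1 h2 =>
      obtain ⟨g1, rfl, h1⟩ := h1
      obtain ⟨g2, rfl, h2⟩ := h2
      exact ⟨g1 + g2, rfl, add_mem h1 h2⟩
    | inv y _ h1 =>
      obtain ⟨g1, rfl, h1⟩ := h1
      exact ⟨g1⁻¹, rfl, inv_mem h1⟩
    | mul y z _ _ h1 h2 =>
      obtain ⟨g1, rfl, h1⟩ := h1
      obtain ⟨g2, rfl, h2⟩ := h2
      exact ⟨g1 * g2, rfl, mul_mem h1 h2⟩
  obtain ⟨g, hg, hmem⟩ := key f.1 f.2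
  have : g = 𝒞.incFE f := Subtype.ext hg
  rwa [this] at hmem

theorem fin_x_ne_zero : 𝒞.x ≠ 0 := by
  intro h
  have h1 : xK 𝒞.K 𝒞.Λ = 0 := congrArg Subtype.val h
  have h2 := order_xK 𝒞.K 𝒞.Λ
  rw [h1, HahnSeries.order_zero] at h2
  omega

theorem fin_aeval_Ap_ne_zero : aeval 𝒞.x 𝒞.Λ.Ap ≠ 0 := by
  rcases 𝒞.Λ_eq with hΛ | hΛ
  · rw [hΛ]
    simpa [line2] using 𝒞.fin_x_ne_zero
  · rw [hΛ]
    simpa [line3] using 𝒞.fin_x_ne_zero

theorem fin_modEq (y : 𝒞.E) (hy : y ∈ 𝒞.finS) :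
    ∃ P : (ℚ[X])[X], P.Monic ∧ P.eval₂ (Polynomial.eval₂RingHom
      ((algebraMap 𝒞.K 𝒞.E).comp (algebraMap ℚ 𝒞.K)) (𝒞.incFE (HSide.jK0 𝒞.K N))) y = 0 := by
  obtain ⟨d, hd0, hd, hy⟩ := hy
  obtain ⟨P, hP, h0⟩ := Fin.exists_modEq 𝒞.K d
  refine ⟨P, hP, ?_⟩
  apply Subtype.val_injective
  have h3 := hom_eval₂ P (Polynomial.eval₂RingHom
      ((algebraMap 𝒞.K 𝒞.E).comp (algebraMap ℚ 𝒞.K)) (𝒞.incFE (HSide.jK0 𝒞.K N)))
      𝒞.E.val.toRingHom y
  have h5 : 𝒞.E.val.toRingHom y = qExpand 𝒞.K d (jqModC 𝒞.K) := hy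
  rw [h5] at h3
  refine Eq.trans h3 ?_
  refine Eq.trans ?_ h0
  congr 1
  apply Polynomial.ringHom_ext
  · intro a
    have : ∀ f g : ℚ →+* LaurentSeries 𝒞.K, f a = g a := fun f g => by
      rw [Subsingleton.elim f g]
    exact this ((𝒞.E.val.toRingHom.comp (Polynomial.eval₂RingHom
      ((algebraMap 𝒞.K 𝒞.E).comp (algebraMap ℚ 𝒞.K)) (𝒞.incFE (HSide.jK0 𝒞.K N)))).comp
        Polynomial.C)
      ((Polynomial.eval₂RingHom ((algebraMap 𝒞.K (LaurentSeries 𝒞.K)).comp (algebraMap ℚ 𝒞.K))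
        (jqModC 𝒞.K)).comp Polynomial.C)
  · rw [coe_eval₂RingHom, eval₂_X, RingHom.comp_apply, coe_eval₂RingHom, eval₂_X]
    rfl

/-- task B3. `E = K(x)(j_d, u)`, each generator is algebraic over `K(x)`: `j = B(x)/A(x) ∈ K(x)`
(`xK_rel`), `j_d` is algebraic over `K(j)` (modular polynomial; S24 `degree_isAlgebraic` gives it over
`ℚ̄`, S28 has the integral modular equation over `ℤ`), `u^p ∈ F_K`. -/
theorem finiteDimensional : FiniteDimensional 𝒞.K⟮𝒞.x⟯ 𝒞.E := by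
  refine Fin.finiteDimensional_abstract ((algebraMap 𝒞.K 𝒞.E).comp (algebraMap ℚ 𝒞.K)) 𝒞.x
    (𝒞.incFE (HSide.jK0 𝒞.K N)) 𝒞.uE 𝒞.Λ.Ap 𝒞.Λ.Bp 𝒞.fin_aeval_Ap_ne_zero 𝒞.rel_E 𝒞.finS
    𝒞.fin_finite_finS 𝒞.fin_modEq p 𝒞.hp.pos ?_ ?_
  · have h : 𝒞.uE ^ p = 𝒞.incFE (𝒞.a / 𝒞.b) := Subtype.ext 𝒞.hu
    rw [h]
    exact 𝒞.fin_incFE_mem _
  · rw [eq_top_iff, ← 𝒞.closure_eq_top, Subfield.closure_le]
    rintro y (⟨f, rfl⟩ | hy)
    · exact Subfield.closure_mono Set.subset_union_left (𝒞.fin_incFE_mem f)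
    · exact Subfield.subset_closure (Or.inr hy)

end Ctx

end Fermat.Agent.S18
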