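import Fermat.Agent.S18.Ctx

/-! # S18 task B6 -/

set_option autoImplicit false

noncomputable section

namespace Fermat.Agent.S18

open Polynomial IntermediateField ModularCurve AlgebraicCurve
open Fermat.Agent.S24 (Kb FN iotaK)

namespace Irr

/-- Eisenstein over `K[[q]]`. -/
theorem irreducible_powerSeries {K : Type*} [Field K] (v : PowerSeries K)
    (hv : PowerSeries.constantCoeff v ≠ 0) {n : ℕ} (hn : 0 < n) :
    Irreducible (X ^ n - C (PowerSeries.X * v) : (PowerSeries K)[X]) := by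
  have hmonic : (X ^ n - C (PowerSeries.X * v) : (PowerSeries K)[X]).Monic :=
    monic_X_pow_sub_C _ hn.ne'
  have hdeg : (X ^ n - C (PowerSeries.X * v) : (PowerSeries K)[X]).degree = n :=
    degree_X_pow_sub_C hn _
  refine irreducible_of_eisenstein_criterion (P := Ideal.span {PowerSeries.X})
    PowerSeries.span_X_isPrime ?_ ?_ ?_ ?_ hmonic.isPrimitive
  · rw [hmonic.leadingCoeff]
    intro h
    exact PowerSeries.span_X_isPrime.ne_top ((Ideal.eq_top_iff_one _).mpr h)
  · intro m hm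
    rw [hdeg] at hm
    have hm' : m < n := by exact_mod_cast hm
    rw [coeff_sub, coeff_X_pow, if_neg hm'.ne, zero_sub, coeff_C]
    split_ifs
    · exact (Ideal.neg_mem_iff _).mpr (Ideal.mem_span_singleton.mpr (Dvd.intro _ rfl))
    · simp
  · rw [hdeg]
    exact_mod_cast hn
  · rw [coeff_sub, coeff_X_pow, if_neg hn.ne, zero_sub, coeff_C_zero, Ideal.neg_mem_iff,
      Ideal.span_singleton_pow, Ideal.mem_span_singleton, pow_two]
    intro h
    have h2 : PowerSeries.X ∣ v := (mul_dvd_mul_iff_left PowerSeries.X_ne_zero).mp h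
    exact hv (PowerSeries.X_dvd_iff.mp h2)

/-- `X^n - y` is irreducible over `K((q))` if `y` has order `1`. -/
theorem irreducible_of_order_one {K : Type*} [Field K] (y : LaurentSeries K) (hy : y.order = 1)
    {n : ℕ} (hn : 0 < n) : Irreducible (X ^ n - C y : (LaurentSeries K)[X]) := by
  have hy0 : y ≠ 0 := by
    rintro rfl
    simp at hy
  set v := LaurentSeries.powerSeriesPart y with hvdef
  have hv : PowerSeries.constantCoeff v ≠ 0 := by
    rw [← PowerSeries.coeff_zero_eq_constantCoeff_apply, hvdef, LaurentSeries.powerSeriesPart_coeff]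
    simpa using (HahnSeries.coeff_order_eq_zero.not.mpr hy0)
  have hyv : y = algebraMap (PowerSeries K) (LaurentSeries K) (PowerSeries.X * v) := by
    rw [LaurentSeries.coe_algebraMap, map_mul, HahnSeries.ofPowerSeries_X, ← hy]
    exact (LaurentSeries.single_order_mul_powerSeriesPart y).symm
  have h1 := irreducible_powerSeries v hv hn
  have hmonic : (X ^ n - C (PowerSeries.X * v) : (PowerSeries K)[X]).Monic :=
    monic_X_pow_sub_C _ hn.ne'
  have h2 := (hmonic.irreducible_iff_irreducible_map_fraction_map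
    (K := LaurentSeries K)).mp h1
  rw [Polynomial.map_sub, Polynomial.map_pow, map_X, map_C, ← hyv] at h2
  exact h2

theorem reverse_X_pow_sub_C {F : Type*} [Field F] (b : F) (n : ℕ) :
    (X ^ n - C b : F[X]).reverse = 1 - C b * X ^ n := by
  rw [sub_eq_add_neg, ← C_neg, reverse_add_C, natDegree_X_pow]
  have : (X ^ n : F[X]).reverse = 1 := by
    have := reverse_mul_X_pow (1 : F[X]) n
    rw [one_mul] at this
    rw [this]
    simpa using reverse_C (1 : F)
  rw [this, C_neg]
  ring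

/-- inverting the constant term. -/
theorem irreducible_inv {F : Type*} [Field F] {a : F} (ha : a ≠ 0) {n : ℕ} (hn : 0 < n)
    (h : Irreducible (X ^ n - C a : F[X])) : Irreducible (X ^ n - C a⁻¹ : F[X]) := by
  have hrev : (X ^ n - C a⁻¹ : F[X]).reverse = C (-a⁻¹) * (X ^ n - C a) := by
    rw [reverse_X_pow_sub_C, mul_sub, ← C_mul, C_neg]
    have : -a⁻¹ * a = -1 := by field_simp
    rw [this]
    simp
    ring
  have hirr : Irreducible (X ^ n - C a⁻¹ : F[X]).reverse := by
    rw [hrev]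
    exact (irreducible_isUnit_mul (isUnit_C.mpr (IsUnit.mk0 _ (neg_ne_zero.mpr (inv_ne_zero ha))))).mpr h
  have hc0 : (X ^ n - C a⁻¹ : F[X]).coeff 0 ≠ 0 := by
    simp [coeff_X_pow, hn.ne, ha]
  constructor
  · intro hu
    have := natDegree_eq_zero_of_isUnit hu
    rw [natDegree_X_pow_sub_C] at this
    omega
  · intro g k hgk
    have hg0 : g.coeff 0 ≠ 0 := by
      intro h0
      apply hc0
      rw [hgk, mul_coeff_zero, h0, zero_mul]
    have hk0 : k.coeff 0 ≠ 0 := by
      intro h0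
      apply hc0
      rw [hgk, mul_coeff_zero, h0, mul_zero]
    have hr : (X ^ n - C a⁻¹ : F[X]).reverse = g.reverse * k.reverse := by
      rw [hgk, reverse_mul_of_domain]
    have key : ∀ f : F[X], f.coeff 0 ≠ 0 → IsUnit f.reverse → IsUnit f := by
      intro f hf hu
      have h1 := natDegree_eq_zero_of_isUnit hu
      rw [reverse_natDegree, natTrailingDegree_eq_zero.mpr (Or.inr hf), Nat.sub_zero] at h1
      rw [eq_C_of_natDegree_eq_zero h1]
      exact isUnit_C.mpr (IsUnit.mk0 _ hf)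
    rcases hirr.isUnit_or_isUnit hr with hu | hu
    · exact Or.inl (key g hg0 hu)
    · exact Or.inr (key k hk0 hu)

/-- `X^n - y` is irreducible over `K((q))` if `y` has order `-1`. -/
theorem irreducible_of_order_neg_one {K : Type*} [Field K] (y : LaurentSeries K)
    (hy : y.order = -1) {n : ℕ} (hn : 0 < n) : Irreducible (X ^ n - C y : (LaurentSeries K)[X]) := by
  have hy0 : y ≠ 0 := by
    rintro rfl
    simp at hy
  have hinv : y⁻¹.order = 1 := by
    have h1 := HahnSeries.order_mul hy0 (inv_ne_zero hy0)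
    rw [mul_inv_cancel₀ hy0, HahnSeries.order_one, hy] at h1
    omega
  have h2 := irreducible_inv (inv_ne_zero hy0) hn (irreducible_of_order_one y⁻¹ hinv hn)
  rwa [inv_inv] at h2

/-- descent to an intermediate field. -/
theorem irreducible_descend {K : Type*} [Field K] (E : IntermediateField K (LaurentSeries K))
    (y : E) {n : ℕ} (hn : 0 < n)
    (h : Irreducible (X ^ n - C (y : LaurentSeries K) : (LaurentSeries K)[X])) :
    Irreducible (X ^ n - C y : E[X]) := by
  refine Monic.irreducible_of_irreducible_map (algebraMap E (LaurentSeries K)) _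
    (monic_X_pow_sub_C _ hn.ne') ?_
  rw [Polynomial.map_sub, Polynomial.map_pow, map_X, map_C]
  exact h

theorem order_sub_C {K : Type*} [Field K] (y : LaurentSeries K) (hy : y.order = -1) (c : K) :
    (y - HahnSeries.C c).order = -1 := by
  have hy0 : y ≠ 0 := by
    rintro rfl
    simp at hy
  have hc : (y - HahnSeries.C c).coeff (-1) ≠ 0 := by
    rw [HahnSeries.coeff_sub, HahnSeries.C_apply, HahnSeries.coeff_single_of_ne (by norm_num),
      sub_zero, ← hy]
    exact HahnSeries.coeff_order_eq_zero.not.mpr hy0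
  have hne : y - HahnSeries.C c ≠ 0 := by
    intro h
    rw [h] at hc
    simp at hc
  apply le_antisymm (HahnSeries.order_le_of_coeff_ne_zero hc)
  have h1 := HahnSeries.min_order_le_order_add (x := y) (y := -HahnSeries.C c)
    (by rwa [← sub_eq_add_neg])
  rw [HahnSeries.order_neg, HahnSeries.order_C, hy, ← sub_eq_add_neg] at h1
  simpa using h1

end Irr

namespace Ctx

variable {N : ℕ} [NeZero N] {ℓ p : ℕ} {A : ValuationSubring Kb} (𝒞 : Ctx N ℓ p A)

/-- task B6. general lemma: if `y ∈ E ⊆ K((q))` has `q`-order `±1` then `X^n - y` is irreducible over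
`E` for all `n ≥ 1` (e.g. `X^n - y` is irreducible over `K((q))`: Eisenstein over `K[[q]]` for `y` or
`y⁻¹`; a fortiori over the subfield `E`). -/
theorem irr0 : Irreducible (X ^ N - C 𝒞.x : 𝒞.E[X]) :=
  Irr.irreducible_descend 𝒞.E 𝒞.x (Nat.pos_of_ne_zero (NeZero.ne N))
    (Irr.irreducible_of_order_neg_one _ (order_xK 𝒞.K 𝒞.Λ) (Nat.pos_of_ne_zero (NeZero.ne N)))

theorem Λ_ec_pos : 0 < 𝒞.Λ.ec := by
  unfold Ctx.Λ lineOf
  split_ifs <;> simp [line2, line3]

/-- task B6. -/
theorem irrc : Irreducible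
    (X ^ 𝒞.Λ.ec - C (𝒞.x - algebraMap 𝒞.K 𝒞.E (algebraMap 𝒞.R 𝒞.K 𝒞.cR)) : 𝒞.E[X]) := by
  refine Irr.irreducible_descend 𝒞.E _ 𝒞.Λ_ec_pos ?_
  have h1 : ((𝒞.x - algebraMap 𝒞.K 𝒞.E (algebraMap 𝒞.R 𝒞.K 𝒞.cR) : 𝒞.E) : LaurentSeries 𝒞.K) =
      xK 𝒞.K 𝒞.Λ - HahnSeries.C (algebraMap 𝒞.R 𝒞.K 𝒞.cR) := by
    rw [AddSubgroupClass.coe_sub]
    congr 1
    rw [IntermediateField.coe_algebraMap_apply, HahnSeries.algebraMap_apply',
      ← HahnSeries.ofPowerSeries_C]
    rfl
  rw [h1]
  exact Irr.irreducible_of_order_neg_one _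
    (Irr.order_sub_C _ (order_xK 𝒞.K 𝒞.Λ) (algebraMap 𝒞.R 𝒞.K 𝒞.cR)) 𝒞.Λ_ec_pos

/-- task B6. -/
theorem irrinf : Irreducible (X ^ N - C 𝒞.x⁻¹ : 𝒞.E[X]) := by
  refine Irr.irreducible_descend 𝒞.E 𝒞.x⁻¹ (Nat.pos_of_ne_zero (NeZero.ne N)) ?_
  have hx : (xK 𝒞.K 𝒞.Λ).order = -1 := order_xK 𝒞.K 𝒞.Λ
  have hx0 : xK 𝒞.K 𝒞.Λ ≠ 0 := by
    intro h
    rw [h] at hx
    simp at hx
  have hinv : (xK 𝒞.K 𝒞.Λ)⁻¹.order = 1 := by
    have h1 := HahnSeries.order_mul hx0 (inv_ne_zero hx0)
    rw [mul_inv_cancel₀ hx0, HahnSeries.order_one, hx] at h1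
    omega
  exact Irr.irreducible_of_order_one _ hinv (Nat.pos_of_ne_zero (NeZero.ne N))

end Ctx

end Fermat.Agent.S18
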