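import Fermat.Agent.S18.Ctx
import Fermat.Agent.S18.B.DVR

/-! # S18 task B5 -/

set_option autoImplicit false

noncomputable section

namespace Fermat.Agent.S18

open Polynomial IntermediateField ModularCurve AlgebraicCurve
open Fermat.Agent.S24 (Kb FN iotaK)

namespace Ctx

variable {N : ℕ} [NeZero N] {ℓ p : ℕ} {A : ValuationSubring Kb} (𝒞 : Ctx N ℓ p A)

theorem units_isUnit_intCast (n : ℤ) (h : IsCoprime n (ℓ : ℤ)) : IsUnit (n : 𝒞.R) := by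
  obtain ⟨s, t, hst⟩ := h
  have hℓ : (ℓ : 𝒞.R) ∈ IsLocalRing.maximalIdeal 𝒞.R := by
    rw [← ValuationSubring.coe_mem_nonunits_iff]
    have : (((ℓ : 𝒞.R) : 𝒞.R) : 𝒞.K) = (ℓ : 𝒞.K) := by push_cast; rfl
    rw [this]
    show (ℓ : 𝒞.K) ∈ (A.comap 𝒞.ι).nonunits
    rw [DVR.mem_nonunits_comap, map_natCast]
    exact 𝒞.hA
  have h1 : (s : 𝒞.R) * (n : 𝒞.R) + (t : 𝒞.R) * (ℓ : 𝒞.R) = 1 := by
    exact_mod_cast congrArg (fun z : ℤ => (z : 𝒞.R)) hst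
  by_contra hn
  have hn' : (n : 𝒞.R) ∈ IsLocalRing.maximalIdeal 𝒞.R := hn
  have hℓ' : (ℓ : 𝒞.R) ∈ IsLocalRing.maximalIdeal 𝒞.R := hℓ
  have : (1 : 𝒞.R) ∈ IsLocalRing.maximalIdeal 𝒞.R := by
    rw [← h1]
    exact add_mem (Ideal.mul_mem_left _ _ hn') (Ideal.mul_mem_left _ _ hℓ')
  exact (Ideal.ne_top_iff_one _).1 (IsLocalRing.maximalIdeal.isMaximal 𝒞.R).ne_top this

theorem units_isUnit_natCast (n : ℕ) (h : Nat.Coprime n ℓ) : IsUnit (n : 𝒞.R) := by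
  have := 𝒞.units_isUnit_intCast (n : ℤ) (Nat.isCoprime_iff_coprime.2 h)
  exact_mod_cast this

/-- task B5. an integer prime to `ℓ` is a unit of `R = A ∩ K`. (`c = -27` for `ℓ ≠ 3`, `-64` for
`ℓ = 3`.) -/
theorem isUnit_c : IsUnit 𝒞.cR := by
  unfold cR
  apply units_isUnit_intCast
  unfold Λ lineOf
  split_ifs with h
  · subst h
    show IsCoprime (-64 : ℤ) ((3 : ℕ) : ℤ)
    exact ⟨-1, -21, by norm_num⟩
  · show IsCoprime (-27 : ℤ) (ℓ : ℤ)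
    have h3 : Nat.Coprime 3 ℓ := (Nat.coprime_primes Nat.prime_three 𝒞.hℓ).2 (Ne.symm h)
    have h27 : Nat.Coprime (3 ^ 3) ℓ := Nat.Coprime.pow_left 3 h3
    have := Nat.isCoprime_iff_coprime.2 h27
    rw [IsCoprime.neg_left_iff]
    exact_mod_cast this

/-- task B5. -/
theorem isUnit_N : IsUnit (N : 𝒞.R) := by
  apply units_isUnit_natCast
  exact (Nat.Coprime.symm ((Nat.Prime.coprime_iff_not_dvd 𝒞.hℓ).2 𝒞.hℓN))

/-- task B5. (`ec = 3` for `ℓ ≠ 3`, `2` for `ℓ = 3`.) -/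
theorem isUnit_ec : IsUnit (𝒞.Λ.ec : 𝒞.R) := by
  apply units_isUnit_natCast
  unfold Λ lineOf
  split_ifs with h
  · subst h
    show Nat.Coprime 2 3
    norm_num
  · show Nat.Coprime 3 ℓ
    exact (Nat.coprime_primes Nat.prime_three 𝒞.hℓ).2 (Ne.symm h)

end Ctx

end Fermat.Agent.S18
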